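import Mathlib

/-!
# K-machine, piece G2: the Cayley transform and the local relations, element level

All identities are stated for the entries of `2 × 2` matrices over a commutative ring `B`, so
that they can be used for any representation of the matrices.

Notation: `Φ = (F00 F01; F10 F11)` with `det Φ = s²`, `w = (2s + tr Φ)⁻¹`;
`Ψ = w (2Φ − tr Φ) = (X Y; Z −X)`, `ν = X² + YZ`; then `(1 − ν) Φ = s ((1 + ν) + 2Ψ)`
(`rtg2_cayley`).  `Σ = t + (a b; c −a)`.

* `rtg2_cayley_nu`, `rtg2_cayley` : the Cayley transform inverts `Ψ ↦ s((1+ν) + 2Ψ)/(1−ν)`;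
* `rtg2_sigma_sq`   : `a² + bc = t² − det Σ`;
* `rtg2_minors`     : `[Φ, Σ] = 0` gives the three minors `bX − aY = cX − aZ = cY − bZ = 0`;
* `rtg2_unip`       : `Φ N = q N Φ` gives the four relations `Φ' N − q N Φ' = 0` for
  `Φ' = (1 + ν) + 2Ψ = κ Φ`.
-/

set_option autoImplicit false

namespace Fermat.Agent.RT.G2

variable {B : Type*} [CommRing B]

/-- `ν = w (tr Φ − 2s)` for the Cayley parameter of `Φ`, `det Φ = s²`. -/
theorem rtg2_cayley_nu (F00 F01 F10 F11 s w : B) (hdet : F00 * F11 - F01 * F10 = s ^ 2)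
    (hw : w * (2 * s + (F00 + F11)) = 1) :
    (w * (F00 - F11)) ^ 2 + (w * (2 * F01)) * (w * (2 * F10)) = w * (F00 + F11 - 2 * s) := by
  linear_combination (w * (F00 + F11 - 2 * s)) * hw - 4 * w ^ 2 * hdet

/-- `1 − ν = 4 s w`. -/
theorem rtg2_cayley_one_sub_nu (F00 F01 F10 F11 s w : B)
    (hdet : F00 * F11 - F01 * F10 = s ^ 2) (hw : w * (2 * s + (F00 + F11)) = 1) :
    1 - ((w * (F00 - F11)) ^ 2 + (w * (2 * F01)) * (w * (2 * F10))) = 4 * s * w := by
  rw [rtg2_cayley_nu F00 F01 F10 F11 s w hdet hw]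
  linear_combination -hw

/-- **Cayley.**  `(1 − ν) Φ = s ((1 + ν) + 2Ψ)`, entry by entry. -/
theorem rtg2_cayley (F00 F01 F10 F11 s w X Y Z ν : B) (hdet : F00 * F11 - F01 * F10 = s ^ 2)
    (hw : w * (2 * s + (F00 + F11)) = 1)
    (hX : X = w * (F00 - F11)) (hY : Y = w * (2 * F01)) (hZ : Z = w * (2 * F10))
    (hν : ν = X ^ 2 + Y * Z) :
    (1 - ν) * F00 = s * (1 + ν + 2 * X) ∧ (1 - ν) * F01 = s * (2 * Y) ∧
      (1 - ν) * F10 = s * (2 * Z) ∧ (1 - ν) * F11 = s * (1 + ν - 2 * X) := by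
  have h1 : ν = w * (F00 + F11 - 2 * s) := by
    rw [hν, hX, hY, hZ]
    exact rtg2_cayley_nu F00 F01 F10 F11 s w hdet hw
  have h2 : 1 - ν = 4 * s * w := by rw [h1]; linear_combination -hw
  have h3 : 1 + ν = 2 * w * (F00 + F11) := by rw [h1]; linear_combination -hw
  refine ⟨?_, ?_, ?_, ?_⟩
  · rw [h2, h3, hX]; ring
  · rw [h2, hY]; ring
  · rw [h2, hZ]; ring
  · rw [h2, h3, hX]; ring

/-- `a² + bc = t² − det Σ` for `Σ = t + (a b; c −a)` (`tr Σ = 2t`). -/
theorem rtg2_sigma_sq (S00 S01 S10 S11 t : B) (htr : S00 + S11 = 2 * t) :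
    (S00 - t) ^ 2 + S01 * S10 = t ^ 2 - (S00 * S11 - S01 * S10) := by
  linear_combination (S00) * htr

/-- **The minors.**  If `Φ` and `Σ` commute (`tr Σ = 2t`) then `Ψ = w(2Φ − tr Φ)` and
`Σ₀ = Σ − t = (a b; c −a)` satisfy `bX − aY = cX − aZ = cY − bZ = 0`. -/
theorem rtg2_minors (F00 F01 F10 F11 S00 S01 S10 S11 w t : B) (htr : S00 + S11 = 2 * t)
    (h00 : F00 * S00 + F01 * S10 = S00 * F00 + S01 * F10)
    (h01 : F00 * S01 + F01 * S11 = S00 * F01 + S01 * F11)
    (h10 : F10 * S00 + F11 * S10 = S10 * F00 + S11 * F10) :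
    S01 * (w * (F00 - F11)) - (S00 - t) * (w * (2 * F01)) = 0 ∧
    S10 * (w * (F00 - F11)) - (S00 - t) * (w * (2 * F10)) = 0 ∧
    S10 * (w * (2 * F01)) - S01 * (w * (2 * F10)) = 0 := by
  refine ⟨?_, ?_, ?_⟩
  · linear_combination w * h01 - (w * F01) * htr
  · linear_combination (-w) * h10 - (w * F10) * htr
  · linear_combination (2 * w) * h00

/-- **The unipotent relations.**  If `Φ N = q N Φ` for `N = (a b; c −a)` and
`Φ' = κ Φ = (A B; C D)` then `Φ' N − q N Φ' = 0`, entry by entry (in the shape of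
`rtk2E11 … rtk2E22`). -/
theorem rtg2_unip (F00 F01 F10 F11 a b c q κ A Bb C D : B)
    (hA : A = κ * F00) (hB : Bb = κ * F01) (hC : C = κ * F10) (hD : D = κ * F11)
    (h00 : F00 * a + F01 * c = q * (a * F00 + b * F10))
    (h01 : F00 * b - F01 * a = q * (a * F01 + b * F11))
    (h10 : F10 * a + F11 * c = q * (c * F00 - a * F10))
    (h11 : F10 * b - F11 * a = q * (c * F01 - a * F11)) :
    (1 - q) * A * a - q * C * b + Bb * c = 0 ∧
    -((1 + q) * Bb * a) + (A - q * D) * b = 0 ∧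
    (1 + q) * C * a + (D - q * A) * c = 0 ∧
    -((1 - q) * D * a) + C * b - q * Bb * c = 0 := by
  subst hA hB hC hD
  refine ⟨?_, ?_, ?_, ?_⟩
  · linear_combination κ * h00
  · linear_combination κ * h01
  · linear_combination κ * h10
  · linear_combination κ * h11

end Fermat.Agent.RT.G2
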