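import Fermat.Agent.RT.G2.Side

/-!
# K-machine, piece G2: comparison of the values of the variables

* `rtg2_val_congr` : two sides whose matrices have the same images under algebra homomorphisms
  `G1 : T1 → M`, `Gχ : Tχ → M` (`M` any `O`-algebra, not necessarily commutative) have the same
  values of the variables in `M`.
* `rtg2_val_base`  : the same for a side and a base `(Sig0, Phi0, Psi0)` given with its Cayley
  parameter.
-/

set_option autoImplicit false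
set_option linter.style.haveILetI false

namespace Fermat.Agent.RT.G2

open Function MvPowerSeries Fermat.Agent.RT Fermat.Agent.RT.K2

section Compare

variable {O : Type*} [CommRing O] {ι τ : Type*}
  {T1 : Type*} [CommRing T1] [Algebra O T1] {Tχ : Type*} [CommRing Tχ] [Algebra O Tχ]
  {M : Type*} [Ring M] [Algebra O M]

/-- uniqueness of inverses, transported -/
theorem rtg2_w_congr {t1 tχ s : ι → O} {Sig1 Phi1 : ι → Matrix (Fin 2) (Fin 2) T1}
    {x1 : τ → T1} {Sigχ Phiχ : ι → Matrix (Fin 2) (Fin 2) Tχ} {xχ : τ → Tχ}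
    (h1 : Rtg2Side t1 s Sig1 Phi1 x1) (hχ : Rtg2Side tχ s Sigχ Phiχ xχ)
    (G1 : T1 →ₐ[O] M) (Gχ : Tχ →ₐ[O] M)
    (hphi : ∀ i a b, G1 (Phi1 i a b) = Gχ (Phiχ i a b)) (i : ι) :
    G1 (rtg2W s Phi1 i) = Gχ (rtg2W s Phiχ i) := by
  have e1 := congrArg G1 (h1.w_mul i)
  have eχ := congrArg Gχ (hχ.w_mul i)
  have e1' : G1 (2 * algebraMap O T1 (s i) + (Phi1 i 0 0 + Phi1 i 1 1)) *
      G1 (rtg2W s Phi1 i) = 1 := by
    rw [← map_mul, mul_comm, h1.w_mul i, map_one]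
  rw [map_mul, map_one] at e1 eχ
  have hU : G1 (2 * algebraMap O T1 (s i) + (Phi1 i 0 0 + Phi1 i 1 1)) =
      Gχ (2 * algebraMap O Tχ (s i) + (Phiχ i 0 0 + Phiχ i 1 1)) := by
    simp only [map_add, map_mul, map_ofNat, AlgHom.commutes, hphi]
  calc G1 (rtg2W s Phi1 i)
      = (Gχ (rtg2W s Phiχ i) *
          Gχ (2 * algebraMap O Tχ (s i) + (Phiχ i 0 0 + Phiχ i 1 1))) *
            G1 (rtg2W s Phi1 i) := by rw [eχ, one_mul]
    _ = Gχ (rtg2W s Phiχ i) *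
          (G1 (2 * algebraMap O T1 (s i) + (Phi1 i 0 0 + Phi1 i 1 1)) *
            G1 (rtg2W s Phi1 i)) := by rw [mul_assoc, hU]
    _ = Gχ (rtg2W s Phiχ i) := by rw [e1', mul_one]

/-- **Comparison of two sides.** -/
theorem rtg2_val_congr {t1 tχ s : ι → O} {Sig1 Phi1 : ι → Matrix (Fin 2) (Fin 2) T1}
    {x1 : τ → T1} {Sigχ Phiχ : ι → Matrix (Fin 2) (Fin 2) Tχ} {xχ : τ → Tχ}
    (h1 : Rtg2Side t1 s Sig1 Phi1 x1) (hχ : Rtg2Side tχ s Sigχ Phiχ xχ)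
    (G1 : T1 →ₐ[O] M) (Gχ : Tχ →ₐ[O] M)
    (ht : ∀ i, algebraMap O M (t1 i) = algebraMap O M (tχ i))
    (hsig : ∀ i a b, G1 (Sig1 i a b) = Gχ (Sigχ i a b))
    (hphi : ∀ i a b, G1 (Phi1 i a b) = Gχ (Phiχ i a b))
    (hx : ∀ k, G1 (x1 k) = Gχ (xχ k)) (v : Rtk2Var ι τ) :
    G1 (rtg2Val t1 s Sig1 Phi1 x1 v) = Gχ (rtg2Val tχ s Sigχ Phiχ xχ v) := by
  have hw := fun i => rtg2_w_congr h1 hχ G1 Gχ hphi i
  rcases v with ⟨i, k⟩ | k
  · fin_cases k
    · show G1 (Sig1 i 0 0 - algebraMap O T1 (t1 i)) = Gχ (Sigχ i 0 0 - algebraMap O Tχ (tχ i))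
      rw [map_sub, map_sub, AlgHom.commutes, AlgHom.commutes, hsig, ht]
    · exact hsig i 0 1
    · exact hsig i 1 0
    · show G1 (rtg2W s Phi1 i * (Phi1 i 0 0 - Phi1 i 1 1)) =
        Gχ (rtg2W s Phiχ i * (Phiχ i 0 0 - Phiχ i 1 1))
      rw [map_mul, map_mul, map_sub, map_sub, hw, hphi, hphi]
    · show G1 (rtg2W s Phi1 i * (2 * Phi1 i 0 1)) = Gχ (rtg2W s Phiχ i * (2 * Phiχ i 0 1))
      rw [map_mul, map_mul, map_mul, map_mul, map_ofNat, map_ofNat, hw, hphi]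
    · show G1 (rtg2W s Phi1 i * (2 * Phi1 i 1 0)) = Gχ (rtg2W s Phiχ i * (2 * Phiχ i 1 0))
      rw [map_mul, map_mul, map_mul, map_mul, map_ofNat, map_ofNat, hw, hphi]
  · exact hx k

variable {T0 : Type*} [CommRing T0] [Algebra O T0]

/-- **Comparison with the base.** -/
theorem rtg2_val_base {s : ι → O} {Sig1 Phi1 : ι → Matrix (Fin 2) (Fin 2) T1}
    {x1 : τ → T1} (h1 : Rtg2Side (fun _ => (1 : O)) s Sig1 Phi1 x1)
    (Sig0 Phi0 Psi0 : ι → Matrix (Fin 2) (Fin 2) T0)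
    (hcay : ∀ i, IsCayleyParam (algebraMap O T0 (s i)) (Phi0 i) (Psi0 i))
    (G1 : T1 →ₐ[O] M) (G0 : T0 →ₐ[O] M)
    (hsig : ∀ i a b, G1 (Sig1 i a b) = G0 (Sig0 i a b))
    (hphi : ∀ i a b, G1 (Phi1 i a b) = G0 (Phi0 i a b)) (i : ι) (k : Fin 6) :
    G1 (rtg2Val (fun _ => (1 : O)) s Sig1 Phi1 x1 (Sum.inl (i, k))) =
      G0 (rttwBaseVal Sig0 Psi0 (i, k)) := by
  -- the Cayley relation, entry by entry
  have hc := hcay i
  unfold IsCayleyParam at hc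
  rw [two_smul] at hc
  have c00 := congrFun (congrFun hc 0) 0
  have c01 := congrFun (congrFun hc 0) 1
  have c10 := congrFun (congrFun hc 1) 0
  simp only [Matrix.smul_apply, Matrix.sub_apply, Matrix.add_apply, Matrix.one_apply_eq,
    Matrix.one_apply_ne, smul_eq_mul, ne_eq, zero_ne_one, one_ne_zero, not_false_eq_true,
    mul_zero, sub_zero, mul_one, Matrix.trace_fin_two] at c00 c01 c10
  have e1 := congrArg G1 (h1.w_mul i)
  rw [map_mul, map_one] at e1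
  have hU : G1 (2 * algebraMap O T1 (s i) + (Phi1 i 0 0 + Phi1 i 1 1)) =
      G0 (2 * algebraMap O T0 (s i) + (Phi0 i 0 0 + Phi0 i 1 1)) := by
    simp only [map_add, map_mul, map_ofNat, AlgHom.commutes, hphi]
  -- `G0 z = G1 w * G0 (u0 * z)`
  have key : ∀ z : T0, G0 z = G1 (rtg2W s Phi1 i) *
      G0 ((2 * algebraMap O T0 (s i) + (Phi0 i 0 0 + Phi0 i 1 1)) * z) := by
    intro z
    rw [map_mul, ← mul_assoc, ← hU, e1, one_mul]
  fin_cases k
  · show G1 (Sig1 i 0 0 - algebraMap O T1 1) = G0 ((Sig0 i - 1) 0 0)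
    rw [Matrix.sub_apply, Matrix.one_apply_eq, map_sub, map_sub, map_one, map_one, map_one, hsig]
  · show G1 (Sig1 i 0 1) = G0 ((Sig0 i - 1) 0 1)
    rw [Matrix.sub_apply, Matrix.one_apply_ne (by decide), sub_zero, hsig]
  · show G1 (Sig1 i 1 0) = G0 ((Sig0 i - 1) 1 0)
    rw [Matrix.sub_apply, Matrix.one_apply_ne (by decide), sub_zero, hsig]
  · show G1 (rtg2W s Phi1 i * (Phi1 i 0 0 - Phi1 i 1 1)) = G0 (Psi0 i 0 0)
    rw [key (Psi0 i 0 0), map_mul, map_sub, hphi, hphi, ← map_sub]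
    congr 2
    linear_combination -c00
  · show G1 (rtg2W s Phi1 i * (2 * Phi1 i 0 1)) = G0 (Psi0 i 0 1)
    rw [key (Psi0 i 0 1), map_mul, map_mul, map_ofNat, hphi, ← map_ofNat G0, ← map_mul]
    congr 2
    linear_combination -c01
  · show G1 (rtg2W s Phi1 i * (2 * Phi1 i 1 0)) = G0 (Psi0 i 1 0)
    rw [key (Psi0 i 1 0), map_mul, map_mul, map_ofNat, hphi, ← map_ofNat G0, ← map_mul]
    congr 2
    linear_combination -c10

section EvCongr

variable [Finite ι] [Finite τ]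

/-- **Comparison of the two evaluations**: if the matrices of two sides have the same images in
`M`, then so do all the power series. -/
theorem rtg2_ev_congr {t1 tχ s : ι → O} {Sig1 Phi1 : ι → Matrix (Fin 2) (Fin 2) T1}
    {x1 : τ → T1} {Sigχ Phiχ : ι → Matrix (Fin 2) (Fin 2) Tχ} {xχ : τ → Tχ}
    (h1 : Rtg2Side t1 s Sig1 Phi1 x1) (hχ : Rtg2Side tχ s Sigχ Phiχ xχ)
    (G1 : T1 →ₐ[O] M) (Gχ : Tχ →ₐ[O] M)
    (ht : ∀ i, algebraMap O M (t1 i) = algebraMap O M (tχ i))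
    (hsig : ∀ i a b, G1 (Sig1 i a b) = Gχ (Sigχ i a b))
    (hphi : ∀ i a b, G1 (Phi1 i a b) = Gχ (Phiχ i a b))
    (hx : ∀ k, G1 (x1 k) = Gχ (xχ k)) (u : Rtk2P O ι τ) :
    G1 (rtg2Ev h1 u) = Gχ (rtg2Ev hχ u) := by
  obtain ⟨N1, hN1⟩ := Fermat.Agent.S53.exists_pow_span_range_eq_bot_of_isNilpotent
    (fun v => rtg2Ev h1 (X v)) (fun v => by rw [rtg2Ev_X]; exact h1.nil_val v)
  obtain ⟨Nχ, hNχ⟩ := Fermat.Agent.S53.exists_pow_span_range_eq_bot_of_isNilpotent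
    (fun v => rtg2Ev hχ (X v)) (fun v => by rw [rtg2Ev_X]; exact hχ.nil_val v)
  have hN1' : (Ideal.span (Set.range fun v => rtg2Ev h1 (X v))) ^ (max N1 Nχ) = ⊥ :=
    le_bot_iff.mp (hN1 ▸ Ideal.pow_le_pow_right (le_max_left _ _))
  have hNχ' : (Ideal.span (Set.range fun v => rtg2Ev hχ (X v))) ^ (max N1 Nχ) = ⊥ :=
    le_bot_iff.mp (hNχ ▸ Ideal.pow_le_pow_right (le_max_right _ _))
  rw [Fermat.Agent.S53.mvPowerSeries_algHom_apply_eq_aeval_truncTotal (rtg2Ev h1) _ hN1' u,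
    Fermat.Agent.S53.mvPowerSeries_algHom_apply_eq_aeval_truncTotal (rtg2Ev hχ) _ hNχ' u]
  have key : G1.comp (MvPolynomial.aeval fun v => rtg2Ev h1 (X v)) =
      Gχ.comp (MvPolynomial.aeval fun v => rtg2Ev hχ (X v)) := by
    refine MvPolynomial.algHom_ext fun v => ?_
    rw [AlgHom.comp_apply, AlgHom.comp_apply, MvPolynomial.aeval_X, MvPolynomial.aeval_X,
      rtg2Ev_X, rtg2Ev_X]
    exact rtg2_val_congr h1 hχ G1 Gχ ht hsig hphi hx v
  exact DFunLike.congr_fun key _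

end EvCongr

end Compare

end Fermat.Agent.RT.G2
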