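import Fermat.Agent.RT.G2.Main
import Fermat.Agent.RT.PlanTWE

/-!
# K-machine, piece G2E: a Taylor–Wiles datum with even scalars gives an even level datum

`stmtG2E : StmtG2E` (`RT/PlanTWE.lean`): as `stmtG2`, with `TWDatumE`, `TWLevelE`.
-/

set_option autoImplicit false
set_option linter.style.haveILetI false

namespace Fermat.Agent.RT.G2

open Function MvPowerSeries IsLocalRing Fermat.Agent.RT Fermat.Agent.RT.K2

section Aux

variable {O : Type*} [CommRing O]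

/-- The algebraic part of a `TWSideE`. -/
theorem rtg2_side_of_TWSideE {ι τ : Type*} {Sn : Type*} [CommRing Sn] [Algebra O Sn]
    {E : Set Sn} {d : ℕ}
    {t s : ι → O} {T : Type*} [CommRing T] [Algebra O T]
    {j : T →ₐ[O] Matrix (Fin d) (Fin d) Sn} {Sig Phi : ι → Matrix (Fin 2) (Fin 2) T}
    {x : τ → T} (h : TWSideE E t s j Sig Phi x) (hs : ∀ i, IsUnit (s i)) (h2 : IsUnit (2 : O)) :
    Rtg2Side t s Sig Phi x :=
  ⟨h.tr_sig, h.det_sig, h.det_phi, h.nil_sig, h.nil_phi, h.nil_x, hs, h2⟩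

/-- The elements of `E` act through `P`. -/
theorem rtg2_scalE {ι τ : Type*} [Finite ι] [Finite τ] {S : Type*} [CommRing S] [Algebra O S]
    (I : Ideal S) {E : Set (S ⧸ I)} {d : ℕ} {t s : ι → O} {T : Type*} [CommRing T] [Algebra O T]
    {j : T →ₐ[O] Matrix (Fin d) (Fin d) (S ⧸ I)} {Sig Phi : ι → Matrix (Fin 2) (Fin 2) T}
    {x : τ → T} (h : TWSideE E t s j Sig Phi x) (hh : Rtg2Side t s Sig Phi x) (c : S)
    (hc : Ideal.Quotient.mk I c ∈ E) :
    ∃ u : Rtk2P O ι τ, (j.comp (rtg2Ev hh)) u =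
      algebraMap S (Matrix (Fin d) (Fin d) (S ⧸ I)) c := by
  obtain ⟨y, hy, hjy⟩ := h.gen (Ideal.Quotient.mk I c) hc
  obtain ⟨u, rfl⟩ := (AlgHom.mem_range _).mp (rtg2_adjoin_le_range hh hy)
  refine ⟨u, ?_⟩
  rw [AlgHom.comp_apply, hjy]
  rfl

end Aux

/-- **GLUE 2, even form.** -/
theorem stmtG2E : StmtG2E := by
  intro O _ _ _ _ _ lam hlam h2 ι τ _ _ q s tχ δ hsq hs htδ htχ hδ m h d T0 _ _ j0 Sig0 Phi0 Psi0
    hcay n T1 _ _ j1 Sig1 Phi1 x1 Tχ _ _ jχ Sigχ Phiχ xχ D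
  have hus : ∀ i, IsUnit (s i) := fun i => by
    obtain ⟨r, hr⟩ := hs i
    exact rtg2_isUnit_of_pm_one hlam hr
  have h1 : Rtg2Side (fun _ => (1 : O)) s Sig1 Phi1 x1 := rtg2_side_of_TWSideE D.side1 hus h2
  have hχ : Rtg2Side tχ s Sigχ Phiχ xχ := rtg2_side_of_TWSideE D.sideχ hus h2
  refine ⟨j1.comp (rtg2Ev h1), jχ.comp (rtg2Ev hχ), ?_, ?_, ?_, ?_, ?_, ?_, ?_⟩
  · -- kills1
    have hle : rtk2Ione τ q ≤ RingHom.ker (rtg2Ev h1) := by
      refine rtk2_Ione_le fun i => ?_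
      obtain ⟨e1, e2, e3, e4⟩ := rtg2Ev_unip h1 q i rfl (D.rel1 i)
      refine ⟨?_, e1, e2, e3, e4⟩
      rw [RingHom.mem_ker]
      have := rtg2Ev_g h1 i
      rw [this, map_one, one_pow, sub_self]
    intro u hu
    have := hle hu
    rw [RingHom.mem_ker] at this
    rw [AlgHom.comp_apply, this, map_zero]
  · -- killsχ
    have hle : rtk2Ichi τ δ ≤ RingHom.ker (rtg2Ev hχ) := by
      refine rtk2_Ichi_le fun i => ?_
      obtain ⟨e1, e2, e3⟩ := rtg2Ev_minors hχ i (D.relχ i)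
      exact ⟨rtg2Ev_f hχ δ htδ i, e1, e2, e3⟩
    intro u hu
    have := hle hu
    rw [RingHom.mem_ker] at this
    rw [AlgHom.comp_apply, this, map_zero]
  · -- cong
    intro u
    have hlam0 : algebraMap O (RttwS O m ⧸
        (rttwLam m lam ⊔ maximalIdeal (RttwS O m) ^ n)) lam = 0 := by
      have : algebraMap O (RttwS O m ⧸ (rttwLam m lam ⊔ maximalIdeal (RttwS O m) ^ n)) lam =
          Ideal.Quotient.mk _ (C lam : RttwS O m) := rfl
      rw [this, Ideal.Quotient.eq_zero_iff_mem]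
      exact Ideal.mem_sup_left (Ideal.subset_span rfl)
    have ht : ∀ i, algebraMap O (Matrix (Fin d) (Fin d) (RttwS O m ⧸
        (rttwLam m lam ⊔ maximalIdeal (RttwS O m) ^ n))) ((fun _ => (1 : O)) i) =
        algebraMap O _ (tχ i) := by
      intro i
      obtain ⟨r, hr⟩ := htχ i
      have e : algebraMap O (Matrix (Fin d) (Fin d) (RttwS O m ⧸
          (rttwLam m lam ⊔ maximalIdeal (RttwS O m) ^ n))) lam = 0 := by
        ext a b
        rw [Matrix.algebraMap_matrix_apply, hlam0]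
        simp
      rw [hr, map_add, map_mul, e, zero_mul, add_zero]
    exact rtg2_ev_congr h1 hχ
      (((Ideal.Quotient.factorₐ O (le_sup_right : maximalIdeal (RttwS O m) ^ n ≤
        rttwLam m lam ⊔ maximalIdeal (RttwS O m) ^ n)).mapMatrix).comp j1)
      (((Ideal.Quotient.factorₐ O (le_sup_right : maximalIdeal (RttwS O m) ^ n ≤
        rttwLam m lam ⊔ maximalIdeal (RttwS O m) ^ n)).mapMatrix).comp jχ)
      ht D.cong_sig D.cong_phi D.cong_x u
  · -- scal1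
    intro c hc
    exact rtg2_scalE _ D.side1 h1 c ⟨c, hc, rfl⟩
  · -- scalχ
    intro c hc
    exact rtg2_scalE _ D.sideχ hχ c ⟨c, hc, rfl⟩
  · -- base_loc
    intro i k
    have e := rtg2_val_base h1 Sig0 Phi0 Psi0 hcay
      (((Ideal.Quotient.factorₐ O (le_sup_right : maximalIdeal (RttwS O m) ^ n ≤
        rttwAug O m ⊔ maximalIdeal (RttwS O m) ^ n)).mapMatrix).comp j1)
      (((Algebra.ofId O (RttwS O m ⧸
        (rttwAug O m ⊔ maximalIdeal (RttwS O m) ^ n))).mapMatrix).comp j0)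
      D.base_sig D.base_phi i k
    rw [← rtg2Ev_X h1] at e
    exact e
  · -- base_T0
    intro u
    obtain ⟨t0, ht0⟩ := D.base_T0 (rtg2Ev h1 u)
    exact ⟨j0 t0, ⟨t0, rfl⟩, ht0⟩

end Fermat.Agent.RT.G2
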