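import Fermat.Agent.RT.PlanTW
import Fermat.Agent.RT.G2.Cayley
import Fermat.Agent.S53.PowerSeries

/-!
# K-machine, piece G2: one side of a Taylor–Wiles datum gives a homomorphism `P → T`

For matrices `Sig i`, `Phi i ∈ M₂(T)` (`T` a commutative `O`-algebra) with `tr Σ = 2t`,
`det Σ = 1`, `det Φ = s²` and nilpotent entries of `Σ − t`, `Φ − s`, and nilpotent `x k`:

* `rtg2W`   : `w_i = (2 s_i + tr Φ_i)⁻¹`;
* `rtg2Val` : the values of the variables of `P = Rtk2P O ι τ`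
  (`a, b, c` = entries of `Σ − t`; `X, Y, Z` = entries of the Cayley parameter `w (2Φ − tr Φ)`);
* `rtg2Ev`  : the evaluation `P →ₐ[O] T`;
* `rtg2Ev_g`, `rtg2Ev_f` : `a² + bc ↦ t² − 1`;
* `rtg2Ev_minors` : the minors go to `0` if `Φ Σ = Σ Φ`;
* `rtg2Ev_unip`   : the unipotent relations go to `0` if `Φ (Σ − 1) = q (Σ − 1) Φ` (`t = 1`);
* `rtg2_adjoin_le_range` : the entries of `Σ`, `Φ` and the `x k` lie in the range of `rtg2Ev`.
-/

set_option autoImplicit false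
set_option linter.style.haveILetI false

namespace Fermat.Agent.RT.G2

open Function MvPowerSeries Fermat.Agent.RT Fermat.Agent.RT.K2 Fermat.Agent.S53

section Side

variable {O : Type*} [CommRing O] {ι τ : Type*} {T : Type*} [CommRing T] [Algebra O T]

/-- `w_i = (2 s_i + tr Φ_i)⁻¹`. -/
noncomputable def rtg2W (s : ι → O) (Phi : ι → Matrix (Fin 2) (Fin 2) T) (i : ι) : T :=
  Ring.inverse (2 * algebraMap O T (s i) + (Phi i).trace)

/-- The values of the variables of `P`. -/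
noncomputable def rtg2Val (t s : ι → O) (Sig Phi : ι → Matrix (Fin 2) (Fin 2) T) (x : τ → T) :
    Rtk2Var ι τ → T
  | Sum.inl (i, k) =>
    ![Sig i 0 0 - algebraMap O T (t i), Sig i 0 1, Sig i 1 0,
      rtg2W s Phi i * (Phi i 0 0 - Phi i 1 1), rtg2W s Phi i * (2 * Phi i 0 1),
      rtg2W s Phi i * (2 * Phi i 1 0)] k
  | Sum.inr k => x k

/-- The algebraic part of `TWSide`. -/
structure Rtg2Side (t s : ι → O) (Sig Phi : ι → Matrix (Fin 2) (Fin 2) T) (x : τ → T) :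
    Prop where
  tr_sig : ∀ i, (Sig i).trace = algebraMap O T (2 * t i)
  det_sig : ∀ i, (Sig i).det = 1
  det_phi : ∀ i, (Phi i).det = algebraMap O T (s i ^ 2)
  nil_sig : ∀ i a b,
    IsNilpotent ((Sig i - algebraMap O T (t i) • (1 : Matrix (Fin 2) (Fin 2) T)) a b)
  nil_phi : ∀ i a b,
    IsNilpotent ((Phi i - algebraMap O T (s i) • (1 : Matrix (Fin 2) (Fin 2) T)) a b)
  nil_x : ∀ k, IsNilpotent (x k)
  unit_s : ∀ i, IsUnit (s i)
  unit_two : IsUnit (2 : O)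

variable {t s : ι → O} {Sig Phi : ι → Matrix (Fin 2) (Fin 2) T} {x : τ → T}

namespace Rtg2Side

variable (h : Rtg2Side t s Sig Phi x)
include h

theorem tr_sig' (i : ι) : Sig i 0 0 + Sig i 1 1 = 2 * algebraMap O T (t i) := by
  have := h.tr_sig i
  rwa [Matrix.trace_fin_two, map_mul, map_ofNat] at this

theorem det_sig' (i : ι) : Sig i 0 0 * Sig i 1 1 - Sig i 0 1 * Sig i 1 0 = 1 := by
  have := h.det_sig i
  rwa [Matrix.det_fin_two] at this

theorem det_phi' (i : ι) :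
    Phi i 0 0 * Phi i 1 1 - Phi i 0 1 * Phi i 1 0 = algebraMap O T (s i) ^ 2 := by
  have := h.det_phi i
  rwa [Matrix.det_fin_two, map_pow] at this

theorem nil_sig00 (i : ι) : IsNilpotent (Sig i 0 0 - algebraMap O T (t i)) := by
  have := h.nil_sig i 0 0
  rw [Matrix.sub_apply, Matrix.smul_apply, Matrix.one_apply_eq, smul_eq_mul, mul_one] at this
  exact this

theorem nil_sig01 (i : ι) : IsNilpotent (Sig i 0 1) := by
  have := h.nil_sig i 0 1
  simpa using this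

theorem nil_sig10 (i : ι) : IsNilpotent (Sig i 1 0) := by
  have := h.nil_sig i 1 0
  simpa using this

theorem nil_phi00 (i : ι) : IsNilpotent (Phi i 0 0 - algebraMap O T (s i)) := by
  have := h.nil_phi i 0 0
  rw [Matrix.sub_apply, Matrix.smul_apply, Matrix.one_apply_eq, smul_eq_mul, mul_one] at this
  exact this

theorem nil_phi11 (i : ι) : IsNilpotent (Phi i 1 1 - algebraMap O T (s i)) := by
  have := h.nil_phi i 1 1
  rw [Matrix.sub_apply, Matrix.smul_apply, Matrix.one_apply_eq, smul_eq_mul, mul_one] at this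
  exact this

theorem nil_phi01 (i : ι) : IsNilpotent (Phi i 0 1) := by
  have := h.nil_phi i 0 1
  simpa using this

theorem nil_phi10 (i : ι) : IsNilpotent (Phi i 1 0) := by
  have := h.nil_phi i 1 0
  simpa using this

/-- `2 s + tr Φ` is a unit. -/
theorem isUnit_u (i : ι) : IsUnit (2 * algebraMap O T (s i) + (Phi i).trace) := by
  have h4 : IsUnit (4 * algebraMap O T (s i)) := by
    have h2 : IsUnit (algebraMap O T 2) := h.unit_two.map _
    have hs : IsUnit (algebraMap O T (s i)) := (h.unit_s i).map _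
    have : (4 : T) * algebraMap O T (s i) = algebraMap O T 2 * algebraMap O T 2 *
        algebraMap O T (s i) := by
      rw [map_ofNat]; ring
    rw [this]
    exact (h2.mul h2).mul hs
  have hn : IsNilpotent ((Phi i 0 0 - algebraMap O T (s i)) +
      (Phi i 1 1 - algebraMap O T (s i))) :=
    (Commute.all _ _).isNilpotent_add (h.nil_phi00 i) (h.nil_phi11 i)
  have := hn.isUnit_add_left_of_commute h4 (Commute.all _ _)
  have e : 2 * algebraMap O T (s i) + (Phi i).trace = 4 * algebraMap O T (s i) +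
      ((Phi i 0 0 - algebraMap O T (s i)) + (Phi i 1 1 - algebraMap O T (s i))) := by
    rw [Matrix.trace_fin_two]; ring
  rw [e]
  exact this

theorem w_mul (i : ι) :
    rtg2W s Phi i * (2 * algebraMap O T (s i) + (Phi i 0 0 + Phi i 1 1)) = 1 := by
  have h1 : rtg2W s Phi i * (2 * algebraMap O T (s i) + (Phi i).trace) = 1 :=
    Ring.inverse_mul_cancel _ (h.isUnit_u i)
  rw [Matrix.trace_fin_two] at h1
  exact h1

/-- All the values of the variables are nilpotent. -/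
theorem nil_val (v : Rtk2Var ι τ) : IsNilpotent (rtg2Val t s Sig Phi x v) := by
  rcases v with ⟨i, k⟩ | k
  · have h1 : IsNilpotent (Phi i 0 0 - Phi i 1 1) := by
      have := (Commute.all _ _).isNilpotent_sub (h.nil_phi00 i) (h.nil_phi11 i)
      have e : Phi i 0 0 - Phi i 1 1 = (Phi i 0 0 - algebraMap O T (s i)) -
          (Phi i 1 1 - algebraMap O T (s i)) := by ring
      rw [e]; exact this
    fin_cases k
    · exact h.nil_sig00 i
    · exact h.nil_sig01 i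
    · exact h.nil_sig10 i
    · exact (Commute.all _ _).isNilpotent_mul_left h1
    · exact (Commute.all _ _).isNilpotent_mul_left
        ((Commute.all _ _).isNilpotent_mul_left (h.nil_phi01 i))
    · exact (Commute.all _ _).isNilpotent_mul_left
        ((Commute.all _ _).isNilpotent_mul_left (h.nil_phi10 i))
  · exact h.nil_x k

end Rtg2Side

variable [Finite ι] [Finite τ]

/-- The evaluation homomorphism `P → T`. -/
noncomputable def rtg2Ev (h : Rtg2Side t s Sig Phi x) : Rtk2P O ι τ →ₐ[O] T :=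
  evNilp O (rtg2Val t s Sig Phi x) h.nil_val

section Ev

variable (h : Rtg2Side t s Sig Phi x)

theorem rtg2Ev_X (v : Rtk2Var ι τ) : rtg2Ev h (X v) = rtg2Val t s Sig Phi x v :=
  evNilp_X _ _ v

theorem rtg2Ev_a (i : ι) : rtg2Ev h (rtk2a i) = Sig i 0 0 - algebraMap O T (t i) :=
  rtg2Ev_X h _

theorem rtg2Ev_b (i : ι) : rtg2Ev h (rtk2b i) = Sig i 0 1 := rtg2Ev_X h _

theorem rtg2Ev_c (i : ι) : rtg2Ev h (rtk2c i) = Sig i 1 0 := rtg2Ev_X h _

theorem rtg2Ev_XX (i : ι) : rtg2Ev h (rtk2X i) = rtg2W s Phi i * (Phi i 0 0 - Phi i 1 1) :=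
  rtg2Ev_X h _

theorem rtg2Ev_Y (i : ι) : rtg2Ev h (rtk2Y i) = rtg2W s Phi i * (2 * Phi i 0 1) :=
  rtg2Ev_X h _

theorem rtg2Ev_Z (i : ι) : rtg2Ev h (rtk2Z i) = rtg2W s Phi i * (2 * Phi i 1 0) :=
  rtg2Ev_X h _

theorem rtg2Ev_x (k : τ) : rtg2Ev h (X (rtk2jx k)) = x k := rtg2Ev_X h _

theorem rtg2Ev_C (c : O) : rtg2Ev h (C c) = algebraMap O T c := by
  have : (C c : Rtk2P O ι τ) = algebraMap O (Rtk2P O ι τ) c := rfl
  rw [this, AlgHom.commutes]

/-- `a² + bc ↦ t² − 1`. -/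
theorem rtg2Ev_g (i : ι) : rtg2Ev h (rtk2g i) = algebraMap O T (t i) ^ 2 - 1 := by
  unfold rtk2g
  rw [map_add, map_pow, map_mul, rtg2Ev_a, rtg2Ev_b, rtg2Ev_c,
    rtg2_sigma_sq _ _ _ _ _ (h.tr_sig' i), h.det_sig' i]

/-- `a² + bc − δ² ↦ 0` if `t² − δ² = 1`. -/
theorem rtg2Ev_f (δ : ι → O) (hδ : ∀ i, t i ^ 2 - δ i ^ 2 = 1) (i : ι) :
    rtg2Ev h (rtk2f δ i) = 0 := by
  have e : (rtk2f δ i : Rtk2P O ι τ) = rtk2g i - C (δ i ^ 2) := rfl
  rw [e, map_sub, rtg2Ev_g, rtg2Ev_C, ← map_pow, ← map_one (algebraMap O T), ← map_sub,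
    ← map_sub, ← map_zero (algebraMap O T)]
  congr 1
  linear_combination hδ i

theorem rtg2Ev_nu (i : ι) : rtg2Ev h (rtk2nu i) =
    (rtg2W s Phi i * (Phi i 0 0 - Phi i 1 1)) ^ 2 +
      (rtg2W s Phi i * (2 * Phi i 0 1)) * (rtg2W s Phi i * (2 * Phi i 1 0)) := by
  unfold rtk2nu
  rw [map_add, map_pow, map_mul, rtg2Ev_XX, rtg2Ev_Y, rtg2Ev_Z]

/-- **Cayley**: `(1 − ν) Φ = s Φ'`. -/
theorem rtg2Ev_cayley (i : ι) :
    (1 - rtg2Ev h (rtk2nu i)) * Phi i 0 0 = algebraMap O T (s i) * rtg2Ev h (rtk2A i) ∧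
    (1 - rtg2Ev h (rtk2nu i)) * Phi i 0 1 = algebraMap O T (s i) * rtg2Ev h (rtk2B i) ∧
    (1 - rtg2Ev h (rtk2nu i)) * Phi i 1 0 = algebraMap O T (s i) * rtg2Ev h (rtk2C i) ∧
    (1 - rtg2Ev h (rtk2nu i)) * Phi i 1 1 = algebraMap O T (s i) * rtg2Ev h (rtk2D i) := by
  have hc := rtg2_cayley (Phi i 0 0) (Phi i 0 1) (Phi i 1 0) (Phi i 1 1) (algebraMap O T (s i))
    (rtg2W s Phi i) _ _ _ _ (h.det_phi' i) (h.w_mul i) rfl rfl rfl rfl
  have hA : rtg2Ev h (rtk2A i) = 1 + rtg2Ev h (rtk2nu i) + 2 * rtg2Ev h (rtk2X i) := by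
    unfold rtk2A
    rw [map_add, map_add, map_one, map_mul, map_ofNat]
  have hB : rtg2Ev h (rtk2B i) = 2 * rtg2Ev h (rtk2Y i) := by
    unfold rtk2B
    rw [map_mul, map_ofNat]
  have hC : rtg2Ev h (rtk2C i) = 2 * rtg2Ev h (rtk2Z i) := by
    unfold rtk2C
    rw [map_mul, map_ofNat]
  have hD : rtg2Ev h (rtk2D i) = 1 + rtg2Ev h (rtk2nu i) - 2 * rtg2Ev h (rtk2X i) := by
    unfold rtk2D
    rw [map_sub, map_add, map_one, map_mul, map_ofNat]
  rw [hA, hB, hC, hD, rtg2Ev_nu, rtg2Ev_XX, rtg2Ev_Y, rtg2Ev_Z]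
  exact hc

/-- **The minors go to `0`** when `Φ` and `Σ` commute. -/
theorem rtg2Ev_minors (i : ι) (hrel : Phi i * Sig i = Sig i * Phi i) :
    rtg2Ev h (rtk2m1 i) = 0 ∧ rtg2Ev h (rtk2m2 i) = 0 ∧ rtg2Ev h (rtk2m3 i) = 0 := by
  have h00 := congrFun (congrFun hrel 0) 0
  have h01 := congrFun (congrFun hrel 0) 1
  have h10 := congrFun (congrFun hrel 1) 0
  simp only [Matrix.mul_apply, Fin.sum_univ_two] at h00 h01 h10
  have hm := rtg2_minors (Phi i 0 0) (Phi i 0 1) (Phi i 1 0) (Phi i 1 1) (Sig i 0 0)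
    (Sig i 0 1) (Sig i 1 0) (Sig i 1 1) (rtg2W s Phi i) (algebraMap O T (t i))
    (h.tr_sig' i) h00 h01 h10
  unfold rtk2m1 rtk2m2 rtk2m3
  simp only [map_sub, map_mul, rtg2Ev_a, rtg2Ev_b, rtg2Ev_c, rtg2Ev_XX, rtg2Ev_Y, rtg2Ev_Z]
  exact hm

/-- **The unipotent relations go to `0`** when `t = 1` and `Φ (Σ − 1) = q (Σ − 1) Φ`. -/
theorem rtg2Ev_unip (q : ι → O) (i : ι) (ht : t i = 1)
    (hrel : Phi i * (Sig i - 1) = algebraMap O T (q i) • ((Sig i - 1) * Phi i)) :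
    rtg2Ev h (rtk2E11 q i) = 0 ∧ rtg2Ev h (rtk2E12 q i) = 0 ∧
      rtg2Ev h (rtk2E21 q i) = 0 ∧ rtg2Ev h (rtk2E22 q i) = 0 := by
  have htr := h.tr_sig' i
  rw [ht, map_one, mul_one] at htr
  have ha : rtg2Ev h (rtk2a i) = Sig i 0 0 - 1 := by rw [rtg2Ev_a, ht, map_one]
  have h00 := congrFun (congrFun hrel 0) 0
  have h01 := congrFun (congrFun hrel 0) 1
  have h10 := congrFun (congrFun hrel 1) 0
  have h11 := congrFun (congrFun hrel 1) 1
  simp only [Matrix.mul_apply, Fin.sum_univ_two, Matrix.smul_apply, Matrix.sub_apply,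
    Matrix.one_apply_eq, Matrix.one_apply_ne, smul_eq_mul, ne_eq, zero_ne_one, one_ne_zero,
    not_false_eq_true, sub_zero] at h00 h01 h10 h11
  obtain ⟨hA, hB, hC, hD⟩ := rtg2Ev_cayley h i
  obtain ⟨sinv, hsinv⟩ := ((h.unit_s i).map (algebraMap O T)).exists_left_inv
  have key := rtg2_unip (Phi i 0 0) (Phi i 0 1) (Phi i 1 0) (Phi i 1 1) (Sig i 0 0 - 1)
    (Sig i 0 1) (Sig i 1 0) (algebraMap O T (q i)) (sinv * (1 - rtg2Ev h (rtk2nu i)))
    (rtg2Ev h (rtk2A i)) (rtg2Ev h (rtk2B i)) (rtg2Ev h (rtk2C i)) (rtg2Ev h (rtk2D i))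
    (by linear_combination (-(rtg2Ev h (rtk2A i))) * hsinv - sinv * hA)
    (by linear_combination (-(rtg2Ev h (rtk2B i))) * hsinv - sinv * hB)
    (by linear_combination (-(rtg2Ev h (rtk2C i))) * hsinv - sinv * hC)
    (by linear_combination (-(rtg2Ev h (rtk2D i))) * hsinv - sinv * hD)
    (by linear_combination h00)
    (by linear_combination h01 - (Phi i 0 1) * htr + (algebraMap O T (q i) * Phi i 0 1 * 0) * htr)
    (by linear_combination h10 + (algebraMap O T (q i) * Phi i 1 0) * htr)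
    (by linear_combination h11 - (Phi i 1 1) * htr + (algebraMap O T (q i) * Phi i 1 1) * htr)
  unfold rtk2E11 rtk2E12 rtk2E21 rtk2E22
  simp only [map_sub, map_add, map_mul, map_neg, map_one, rtg2Ev_C, ha, rtg2Ev_b, rtg2Ev_c]
  exact key

omit [Finite ι] [Finite τ] in
/-- `1 − ν` is a unit of `P`. -/
theorem rtg2_isUnit_one_sub_nu (i : ι) : IsUnit (1 - rtk2nu i : Rtk2P O ι τ) := by
  rw [MvPowerSeries.isUnit_iff_constantCoeff]
  unfold rtk2nu rtk2X rtk2Y rtk2Z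
  simp

/-- The entries of `Σ`, `Φ` and the `x k` lie in the range of the evaluation. -/
theorem rtg2_adjoin_le_range :
    Algebra.adjoin O (rttwEntries Sig ∪ rttwEntries Phi ∪ Set.range x) ≤ (rtg2Ev h).range := by
  refine Algebra.adjoin_le ?_
  rintro y ((⟨i, a, b, rfl⟩ | ⟨i, a, b, rfl⟩) | ⟨k, rfl⟩)
  · -- entries of `Σ`
    have htr := h.tr_sig' i
    have h00 : Sig i 0 0 ∈ (rtg2Ev h).range := (AlgHom.mem_range _).mpr ⟨rtk2a i + C (t i), by
      rw [map_add, rtg2Ev_a, rtg2Ev_C, sub_add_cancel]⟩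
    have h01 : Sig i 0 1 ∈ (rtg2Ev h).range := (AlgHom.mem_range _).mpr ⟨rtk2b i, rtg2Ev_b h i⟩
    have h10 : Sig i 1 0 ∈ (rtg2Ev h).range := (AlgHom.mem_range _).mpr ⟨rtk2c i, rtg2Ev_c h i⟩
    have h11 : Sig i 1 1 ∈ (rtg2Ev h).range := (AlgHom.mem_range _).mpr ⟨C (t i) - rtk2a i, by
      rw [map_sub, rtg2Ev_a, rtg2Ev_C]
      linear_combination -htr⟩
    fin_cases a <;> fin_cases b
    · exact h00
    · exact h01
    · exact h10
    · exact h11
  · -- entries of `Φ`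
    obtain ⟨hA, hB, hC, hD⟩ := rtg2Ev_cayley h i
    obtain ⟨v, hv⟩ := (rtg2_isUnit_one_sub_nu (O := O) (τ := τ) i).exists_left_inv
    have hv' : rtg2Ev h v * (1 - rtg2Ev h (rtk2nu i)) = 1 := by
      have := congrArg (rtg2Ev h) hv
      rwa [map_mul, map_sub, map_one] at this
    have h00 : Phi i 0 0 ∈ (rtg2Ev h).range :=
      (AlgHom.mem_range _).mpr ⟨v * (C (s i) * rtk2A i), by
        rw [map_mul, map_mul, rtg2Ev_C]
        linear_combination (-(rtg2Ev h v)) * hA + (Phi i 0 0) * hv'⟩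
    have h01 : Phi i 0 1 ∈ (rtg2Ev h).range :=
      (AlgHom.mem_range _).mpr ⟨v * (C (s i) * rtk2B i), by
        rw [map_mul, map_mul, rtg2Ev_C]
        linear_combination (-(rtg2Ev h v)) * hB + (Phi i 0 1) * hv'⟩
    have h10 : Phi i 1 0 ∈ (rtg2Ev h).range :=
      (AlgHom.mem_range _).mpr ⟨v * (C (s i) * rtk2C i), by
        rw [map_mul, map_mul, rtg2Ev_C]
        linear_combination (-(rtg2Ev h v)) * hC + (Phi i 1 0) * hv'⟩
    have h11 : Phi i 1 1 ∈ (rtg2Ev h).range :=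
      (AlgHom.mem_range _).mpr ⟨v * (C (s i) * rtk2D i), by
        rw [map_mul, map_mul, rtg2Ev_C]
        linear_combination (-(rtg2Ev h v)) * hD + (Phi i 1 1) * hv'⟩
    fin_cases a <;> fin_cases b
    · exact h00
    · exact h01
    · exact h10
    · exact h11
  · exact (AlgHom.mem_range _).mpr ⟨X (rtk2jx k), rtg2Ev_x h k⟩

end Ev

end Side

end Fermat.Agent.RT.G2
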